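import Mathlib
import Fermat.Prelude.Def_CuspForm_HeckeAlgebra

/-!
# Eigen-systems of a commutative ring of operators through a given maximal ideal

(Deligne–Serre lifting lemma.)

`exists_eigen_ker_le` finds an eigenvector whose eigen-system has kernel inside the ideal.
-/

set_option autoImplicit false

noncomputable section

namespace Fermat.GR

/-- **Deligne–Serre lifting lemma.**  A commutative ring `T`, finite and torsion-free over `ℤ`,
acting faithfully on a finite-dimensional complex vector space, has an eigenvector whose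
eigen-system has kernel contained in any given prime ideal. -/
theorem exists_eigen_ker_le {V : Type} [AddCommGroup V] [Module ℂ V] [FiniteDimensional ℂ V]
    {T : Type} [CommRing T] [Module.Finite ℤ T] (inj : T →+* Module.End ℂ V)
    (hinj : Function.Injective inj) (𝔮 : Ideal T) [h𝔮 : 𝔮.IsPrime] :
    ∃ (χ : T →+* ℂ), RingHom.ker χ ≤ 𝔮 ∧ ∃ v : V, v ≠ 0 ∧ ∀ t, inj t v = χ t • v := by
  classical
  let A : Subalgebra ℂ (Module.End ℂ V) := Algebra.adjoin ℂ (Set.range inj)
  let : IsMulCommutative A := Algebra.isMulCommutative_adjoin ℂ (by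
    rintro _ ⟨a, rfl⟩ _ ⟨b, rfl⟩
    change inj a * inj b = inj b * inj a
    rw [← map_mul, ← map_mul, mul_comm])
  let : CommRing A := { (inferInstance : Ring A) with mul_comm := fun a b => mul_comm' a b }
  have : Module.Finite ℂ A := Module.Finite.equiv (LinearEquiv.refl ℂ (Subalgebra.toSubmodule A))
  have : IsArtinianRing A := IsArtinianRing.of_finite ℂ A
  have : IsNoetherianRing T := isNoetherian_of_tower ℤ inferInstance
  let j : T →+* A := inj.codRestrict A fun t => Algebra.subset_adjoin ⟨t, rfl⟩
  have hj : Function.Injective j := fun a b h => hinj (congrArg Subtype.val h)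
  obtain ⟨P, hP, hPq⟩ := Ideal.exists_minimalPrimes_le (I := (⊥ : Ideal T)) (J := 𝔮) bot_le
  have : P.IsPrime := hP.1.1
  -- the primes of `A` are finitely many, and their intersection meets `T` in nilpotents
  have hfin := IsArtinianRing.setOfPred_isPrime_finite A
  have hle : hfin.toFinset.inf (fun M => M.comap j) ≤ P := by
    intro t ht
    have hnil : IsNilpotent (j t) := by
      rw [nilpotent_iff_mem_prime]
      intro J hJ
      exact (Finset.inf_le (f := fun M => Ideal.comap j M) (hfin.mem_toFinset.mpr hJ)) ht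
    obtain ⟨n, hn⟩ := hnil
    have : t ^ n = 0 := hj (by rw [map_pow, hn, map_zero])
    exact hP.1.1.mem_of_pow_mem n (this ▸ P.zero_mem)
  obtain ⟨M, hM, hMP⟩ := (Ideal.IsPrime.inf_le' inferInstance).mp hle
  have hMprime : M.IsPrime := hfin.mem_toFinset.mp hM
  have : M.IsMaximal := IsArtinianRing.isMaximal_of_isPrime M
  -- `M` is an associated prime of `V`
  have : Module.Finite A V := Module.Finite.of_restrictScalars_finite ℂ A V
  have hann : Module.annihilator A V = ⊥ := by
    rw [eq_bot_iff]
    intro a ha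
    rw [Submodule.mem_bot]
    exact Subtype.ext (LinearMap.ext fun v => Module.mem_annihilator.mp ha v)
  have hMmin : M ∈ (Module.annihilator A V).minimalPrimes := by
    rw [hann]
    refine ⟨⟨hMprime, bot_le⟩, fun J hJ hJM => ?_⟩
    have := hJ.1
    exact ((IsArtinianRing.isMaximal_of_isPrime J).eq_of_le hMprime.ne_top hJM).ge
  obtain ⟨-, v, hv⟩ := isAssociatedPrime_iff.mp
    (Module.associatedPrimes.minimalPrimes_annihilator_subset_associatedPrimes A V hMmin)
  have hv0 : v ≠ 0 := by
    rintro rfl
    exact hMprime.ne_top (hv.trans (by simp))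
  let : Field (A ⧸ M) := Ideal.Quotient.field M
  have : Module.Finite ℂ (A ⧸ M) :=
    Module.Finite.of_surjective (Ideal.Quotient.mkₐ ℂ M).toLinearMap Ideal.Quotient.mk_surjective
  let e : ℂ ≃ₐ[ℂ] A ⧸ M := AlgEquiv.ofBijective (Algebra.ofId ℂ (A ⧸ M))
    IsAlgClosed.algebraMap_bijective_of_isIntegral
  let χ : T →+* ℂ := (e.symm : (A ⧸ M) →+* ℂ).comp ((Ideal.Quotient.mk M).comp j)
  refine ⟨χ, fun t ht => hPq (hMP ?_), v, hv0, fun t => ?_⟩
  · change j t ∈ M
    rw [← Ideal.Quotient.eq_zero_iff_mem]
    exact e.symm.injective (by rw [map_zero]; exact ht)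
  · have h1 : j t - algebraMap ℂ A (χ t) ∈ M := by
      rw [← Ideal.Quotient.eq]
      exact (e.apply_symm_apply (Ideal.Quotient.mk M (j t))).symm
    rw [hv, Submodule.mem_colon_singleton, Submodule.mem_bot, sub_smul, sub_eq_zero] at h1
    exact h1

end Fermat.GR
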