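import Mathlib
import Fermat.Agent.GR.Lifting.Eigen
import Fermat.Prelude.Def_CuspForm_IntegralLattice
import Fermat.Prelude.Def_CuspForm_IntegralStructure
import Fermat.Prelude.Def_FormalHecke_Eigensystem
import Fermat.Prelude.Thm_CuspForm_mem_intLattice_of_mem_heckeAlgebra
import Fermat.Prelude.Thm_CuspForm_intLattice_fg
import Fermat.Prelude.Thm_ModularFormClass_qCoeff_heckeT
import Fermat.Prelude.Thm_ModularFormClass_qCoeff_heckeU
import Fermat.Prelude.Thm_CongruenceSubgroup_one_mem_strictPeriods_Gamma0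

/-!
# Lifting a mod 3 eigensystem realised in the integral lattice

`exists_eigenform_congruent`: such a system lifts to a normalised eigenform congruent to it, given
an integral basis.
-/

set_option autoImplicit false

noncomputable section

open CongruenceSubgroup ModularFormClass EisensteinWeightOne
open UpperHalfPlane (qExpansion)

namespace Fermat.GR.Lifting

variable {N : ℕ}

/-- `1` is a period of `Γ₀(N)`. -/
theorem one_mem_periods (N : ℕ) :
    (1 : ℝ) ∈ (Subgroup.map (Matrix.SpecialLinearGroup.mapGL ℝ) (Gamma0 N)).strictPeriods :=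
  CongruenceSubgroup.one_mem_strictPeriods_Gamma0 N

/-- The `n`-th Fourier coefficient as a linear map on weight two cusp forms. -/
def coeffLin (N n : ℕ) : CuspForm (Gamma0 N) 2 →ₗ[ℂ] ℂ where
  toFun f := qCoeff f n
  map_add' f g := by
    simp only [qCoeff]
    rw [FunLike.coe_add, ModularForm.qExpansion_add one_pos (one_mem_periods N), map_add]
  map_smul' c f := by
    simp only [qCoeff]
    rw [FunLike.coe_smul, ModularForm.qExpansion_smul one_pos (one_mem_periods N)]
    simp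

/-- The coefficient map, evaluated. -/
theorem coeffLin_apply (n : ℕ) (f : CuspForm (Gamma0 N) 2) : coeffLin N n f = qCoeff f n := rfl

/-- A cusp form with vanishing coefficients is zero. -/
theorem eq_zero_of_qCoeff {f : CuspForm (Gamma0 N) 2} (h : ∀ n, qCoeff f n = 0) : f = 0 := by
  have h0 : qExpansion 1 (⇑f) = 0 := PowerSeries.ext fun n => by simpa [qCoeff] using h n
  have : Fact (IsCusp OnePoint.infty
      (Subgroup.map (Matrix.SpecialLinearGroup.mapGL ℝ) (Gamma0 N))) :=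
    ⟨Subgroup.isCusp_of_mem_strictPeriods one_pos (one_mem_periods N)⟩
  rw [UpperHalfPlane.qExpansion_eq_zero_iff one_pos
    (SlashInvariantFormClass.periodic_comp_ofComplex f (one_mem_periods N))
    (ModularFormClass.holo f) (ModularFormClass.bdd_at_infty f)] at h0
  exact DFunLike.coe_injective (by simpa using h0)

/-- The constant coefficient of a cusp form vanishes. -/
theorem qCoeff_zero (f : CuspForm (Gamma0 N) 2) : qCoeff f 0 = 0 :=
  CuspFormClass.qExpansion_coeff_zero (h := 1) f one_pos (one_mem_periods N)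

/-- The coefficients of the image under a Hecke operator away from the level. -/
theorem coeff_T {ℓ : ℕ} (hℓ : ℓ.Prime) (hℓN : ¬ ℓ ∣ N) (f : CuspForm (Gamma0 N) 2)
    (n : ℕ) : qCoeff (CuspForm.heckeTLin 2 hℓ hℓN f) n =
      qCoeff f (ℓ * n) + (ℓ : ℂ) * (if ℓ ∣ n then qCoeff f (n / ℓ) else 0) := by
  rw [CuspForm.coe_heckeTLin_apply,
    ModularFormClass.qCoeff_heckeT f (one_mem_periods N) hℓ.ne_zero n,
    ModularForm.coeffHeckeT_apply, mul_comm n ℓ]
  split_ifs <;> simp

/-- The coefficients of the image under a Hecke operator at the level. -/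
theorem coeff_U [NeZero N] {q : ℕ} (hq : q.Prime) (hqN : q ∣ N) (f : CuspForm (Gamma0 N) 2)
    (n : ℕ) : qCoeff (CuspForm.heckeULin 2 hqN f) n = qCoeff f (q * n) := by
  rw [CuspForm.coe_heckeULin_apply,
    ModularFormClass.qCoeff_heckeU f (one_mem_periods N) hq.ne_zero n,
    ModularForm.coeffHeckeU_apply, mul_comm n q]

/-- The integral lattice consists of the forms with integral coefficients. -/
theorem mem_intLattice_iff {f : CuspForm (Gamma0 N) 2} :
    f ∈ CuspForm.intLattice N 2 ↔ ∀ n, ∃ m : ℤ, qCoeff f n = m := by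
  refine ⟨fun hf n => ?_, fun h => Submodule.subset_span h⟩
  refine Submodule.span_induction (p := fun (g : CuspForm (Gamma0 N) 2) _ =>
    ∃ m : ℤ, qCoeff g n = m) ?_
    ⟨0, by simpa [coeffLin_apply] using (coeffLin N n).map_zero⟩ ?_ ?_ hf
  · intro g hg
    exact hg n
  · rintro x y - - ⟨a, ha⟩ ⟨b, hb⟩
    exact ⟨a + b, by rw [← coeffLin_apply, map_add, coeffLin_apply, coeffLin_apply, ha, hb]; simp⟩
  · rintro c x - ⟨a, ha⟩
    exact ⟨c * a, by rw [← coeffLin_apply, map_zsmul, coeffLin_apply, ha]; simp⟩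

/-- Forms with integral expansion lie in the integral lattice. -/
theorem qIntegralSet_subset : CuspForm.qIntegralSet N ⊆ CuspForm.intLattice N 2 := fun f hf =>
  mem_intLattice_iff.mpr fun n => by
    obtain ⟨m, hm⟩ := Subring.mem_bot.mp (hf n)
    exact ⟨m, hm.symm⟩

/-- The integral lattice spans the cusp forms when an integral basis exists. -/
theorem span_intLattice (h : CuspForm.HasIntegralBasis N) :
    Submodule.span ℂ (CuspForm.intLattice N 2 : Set (CuspForm (Gamma0 N) 2)) = ⊤ :=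
  top_le_iff.mp (le_trans (ge_of_eq h) (Submodule.span_mono qIntegralSet_subset))

/-- The cusp forms of weight two are finite dimensional when an integral basis exists. -/
theorem finiteDimensional [NeZero N] (h : CuspForm.HasIntegralBasis N) :
    FiniteDimensional ℂ (CuspForm (Gamma0 N) 2) := by
  obtain ⟨s, hs⟩ := CuspForm.intLattice_fg N 2
  refine ⟨⟨s, ?_⟩⟩
  rw [eq_top_iff, ← span_intLattice h, Submodule.span_le, ← hs]
  exact Submodule.span_subset_span ℤ ℂ (s : Set (CuspForm (Gamma0 N) 2))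

/-- The action of a Hecke operator on the integral lattice. -/
def restrictLattice [NeZero N] :
    CuspForm.heckeAlgebra N 2 (∅ : Set ℕ) →ₗ[ℤ]
      (CuspForm.intLattice N 2 →ₗ[ℤ] CuspForm.intLattice N 2) where
  toFun t := ((t.1.restrictScalars ℤ)).restrict fun _ hf =>
    CuspForm.mem_intLattice_of_mem_heckeAlgebra (by norm_num) t.2 hf
  map_add' a b := LinearMap.ext fun x => Subtype.ext rfl
  map_smul' c a := LinearMap.ext fun x => Subtype.ext (by
    simp)

/-- The Hecke algebra is a finite `ℤ`-module when an integral basis exists. -/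
theorem moduleFinite_hecke [NeZero N] (h : CuspForm.HasIntegralBasis N) :
    Module.Finite ℤ (CuspForm.heckeAlgebra N 2 (∅ : Set ℕ)) := by
  have : Module.Finite ℤ (CuspForm.intLattice N 2) :=
    Module.Finite.iff_fg.mpr (CuspForm.intLattice_fg N 2)
  have : Module.IsTorsionFree ℤ (CuspForm (Gamma0 N) 2) :=
    Module.IsTorsionFree.trans_faithfulSMul ℤ ℂ _
  have : Module.Free ℤ (CuspForm.intLattice N 2) :=
    Module.free_of_finite_type_torsion_free'
  refine Module.Finite.of_injective restrictLattice fun a b hab => Subtype.ext ?_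
  refine LinearMap.ext_on (span_intLattice h) fun x hx => ?_
  exact congrArg Subtype.val (LinearMap.congr_fun hab ⟨x, hx⟩)

/-- A natural number is congruent to its value of the character modulo three. -/
theorem three_dvd_sub_chi (ℓ : ℕ) : (3 : ℤ) ∣ (ℓ : ℤ) - chiNegThree ℓ := by
  have h : (3 : ℤ) ∣ (ℓ : ℤ) - ((ℓ % 3 : ℕ) : ℤ) := ⟨((ℓ / 3 : ℕ) : ℤ), by omega⟩
  unfold chiNegThree
  split_ifs <;> omega

/-- The bridge product is congruent to the series modulo three. -/
theorem three_dvd_bridgeProduct_sub (a : ℕ → ℤ) (n : ℕ) :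
    (3 : ℤ) ∣ PowerSeries.coeff n (bridgeProduct a) - a n := by
  rw [bridgeProduct, PowerSeries.coeff_mul,
    ← Finset.add_sum_erase _ _ (show (n, 0) ∈ Finset.HasAntidiagonal.antidiagonal n by simp)]
  simp only [PowerSeries.coeff_mk]
  have h0 : PowerSeries.coeff 0 (e1Chi3In ℤ) = 1 := by
    simp [e1Chi3In, e1Chi3]
  rw [h0, mul_one, add_sub_cancel_left]
  refine Finset.dvd_sum fun x hx => Dvd.dvd.mul_left ?_ _
  obtain ⟨hne, hmem⟩ := Finset.mem_erase.mp hx
  have h2 : x.2 ≠ 0 := by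
    intro h2
    rw [Finset.HasAntidiagonal.mem_antidiagonal, h2, add_zero] at hmem
    exact hne (Prod.ext hmem h2)
  rw [e1Chi3In, PowerSeries.coeff_map, e1Chi3, PowerSeries.coeff_mk, if_neg h2]
  exact ⟨2 * sigmaChi x.2, by simp; ring⟩

/-- Coefficient recursion for a simultaneous eigenvector. -/
theorem eigen_rec [NeZero N] {v : CuspForm (Gamma0 N) 2}
    {χ : CuspForm.heckeAlgebra N 2 (∅ : Set ℕ) →+* ℂ} (hv : ∀ t, t.1 v = χ t • v)
    {ℓ : ℕ} (hℓ : ℓ.Prime) :
    ∃ lam : ℂ, ∀ n, qCoeff v (ℓ * n) +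
      (if ℓ ∣ N then 0 else (ℓ : ℂ)) * (if ℓ ∣ n then qCoeff v (n / ℓ) else 0) =
        lam * qCoeff v n := by
  by_cases hℓN : ℓ ∣ N
  · refine ⟨χ (CuspForm.heckeAlgebra.U hℓ hℓN (Set.notMem_empty ℓ)), fun n => ?_⟩
    have h := congrArg (coeffLin N n) (hv (CuspForm.heckeAlgebra.U hℓ hℓN (Set.notMem_empty ℓ)))
    rw [map_smul, CuspForm.heckeAlgebra.coe_U, coeffLin_apply, coeffLin_apply, coeff_U hℓ hℓN] at h
    simpa [hℓN] using h
  · refine ⟨χ (CuspForm.heckeAlgebra.T hℓ hℓN (Set.notMem_empty ℓ)), fun n => ?_⟩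
    have h := congrArg (coeffLin N n) (hv (CuspForm.heckeAlgebra.T hℓ hℓN (Set.notMem_empty ℓ)))
    rw [map_smul, CuspForm.heckeAlgebra.coe_T, coeffLin_apply, coeffLin_apply, coeff_T hℓ hℓN] at h
    simpa [hℓN] using h

/-- A nonzero eigenvector of the Hecke algebra has nonzero first coefficient. -/
theorem coeff_one_ne_zero [NeZero N] {v : CuspForm (Gamma0 N) 2} (hv0 : v ≠ 0)
    {χ : CuspForm.heckeAlgebra N 2 (∅ : Set ℕ) →+* ℂ} (hv : ∀ t, t.1 v = χ t • v) :
    qCoeff v 1 ≠ 0 := by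
  intro h1
  refine hv0 (eq_zero_of_qCoeff fun n => ?_)
  induction n using Nat.strong_induction_on with
  | _ n ih =>
    rcases Nat.lt_or_ge n 2 with hn | hn
    · interval_cases n
      · exact qCoeff_zero v
      · exact h1
    · have hℓ := Nat.minFac_prime (show n ≠ 1 by omega)
      obtain ⟨lam, hlam⟩ := eigen_rec hv hℓ
      have hm : n / n.minFac < n := Nat.div_lt_self (by omega) hℓ.one_lt
      have := hlam (n / n.minFac)
      rw [Nat.mul_div_cancel' n.minFac_dvd, ih _ hm, mul_zero] at this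
      rw [← this]
      split_ifs with h2 h3
      · simp
      · simp
      · rw [ih _ (lt_of_le_of_lt (Nat.div_le_self _ _) hm), mul_zero, add_zero]
      · simp

/-- An eigenvector with first coefficient `1` is a normalised eigenform. -/
theorem isNormalizedEigenform_of_eigen [NeZero N] {v : CuspForm (Gamma0 N) 2}
    (h1 : qCoeff v 1 = 1)
    {χ : CuspForm.heckeAlgebra N 2 (∅ : Set ℕ) →+* ℂ} (hv : ∀ t, t.1 v = χ t • v) :
    v.IsNormalizedEigenform := by
  have hrec : ∀ ℓ : ℕ, ℓ.Prime → ∀ n, qCoeff v (ℓ * n) +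
      (if ℓ ∣ N then 0 else (ℓ : ℂ)) * (if ℓ ∣ n then qCoeff v (n / ℓ) else 0) =
        qCoeff v ℓ * qCoeff v n := by
    intro ℓ hℓ n
    obtain ⟨lam, hlam⟩ := eigen_rec hv hℓ
    have := hlam 1
    rw [mul_one, h1, mul_one, if_neg (fun h => hℓ.one_lt.ne' (Nat.dvd_one.mp h)), mul_zero,
      add_zero] at this
    rw [this, hlam n]
  refine ⟨h1, ?_, ?_, ?_⟩
  -- multiplicativity, by induction on the least prime factor
  · intro m
    induction m using Nat.strong_induction_on with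
    | _ m ih =>
      intro n hmn
      rcases Nat.lt_or_ge m 2 with hm | hm
      · interval_cases m
        · simp only [Nat.coprime_zero_left] at hmn
          subst hmn
          simp [h1]
        · simp [h1]
      · have hℓ := Nat.minFac_prime (show m ≠ 1 by omega)
        set ℓ := m.minFac with hℓdef
        obtain ⟨k, hk⟩ := m.minFac_dvd
        rw [← hℓdef] at hk
        have hkm : k < m := by
          rw [hk]; exact lt_mul_of_one_lt_left (by rcases Nat.eq_zero_or_pos k with h | h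
                                                   · subst h; omega
                                                   · exact h) hℓ.one_lt
        have hℓn : ¬ ℓ ∣ n := fun h =>
          hℓ.one_lt.ne' (Nat.dvd_one.mp (hmn ▸ Nat.dvd_gcd (hk ▸ dvd_mul_right ℓ k) h))
        have hkn : k.Coprime n := Nat.Coprime.coprime_dvd_left ⟨ℓ, by rw [hk, mul_comm]⟩ hmn
        have e1 := hrec ℓ hℓ (k * n)
        have e2 := hrec ℓ hℓ k
        rw [← mul_assoc, ← hk, ih k hkm n hkn] at e1
        rw [← hk] at e2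
        by_cases hℓk : ℓ ∣ k
        · rw [if_pos (dvd_mul_of_dvd_left hℓk n), Nat.mul_comm k n,
            Nat.mul_div_assoc n hℓk, mul_comm n (k / ℓ),
            ih (k / ℓ) (lt_of_le_of_lt (Nat.div_le_self _ _) hkm) n
              (Nat.Coprime.coprime_dvd_left (Nat.div_dvd_of_dvd hℓk) hkn)] at e1
          rw [if_pos hℓk] at e2
          linear_combination e1 - qCoeff v n * e2
        · rw [if_neg (fun h => (hℓ.dvd_mul.mp h).elim hℓk hℓn)] at e1
          rw [if_neg hℓk] at e2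
          linear_combination e1 - qCoeff v n * e2
  · intro p r hp hpN
    have h := hrec p hp (p ^ (r + 1))
    rw [← pow_succ', if_neg hpN, if_pos (dvd_pow_self p (by omega)),
      show p ^ (r + 1) / p = p ^ r by rw [pow_succ, Nat.mul_div_cancel _ hp.pos]] at h
    linear_combination h
  · intro p r hp hpN
    have h := hrec p hp (p ^ (r + 1))
    rw [← pow_succ', if_pos hpN] at h
    linear_combination h

/-- An integral form with all coefficients divisible by `3` is `3` times an integral form. -/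
private theorem exists_three_smul (g : CuspForm (Gamma0 N) 2)
    (hg : ∀ n, ∃ m : ℤ, qCoeff g n = (3 : ℂ) * m) :
    ∃ g' ∈ CuspForm.intLattice N 2, g = (3 : ℂ) • g' := by
  refine ⟨(3 : ℂ)⁻¹ • g, mem_intLattice_iff.mpr fun n => ?_,
    (smul_inv_smul₀ (by norm_num) g).symm⟩
  obtain ⟨m, hm⟩ := hg n
  exact ⟨m, by rw [← coeffLin_apply, map_smul, coeffLin_apply, hm]; simp⟩

/-- A Hecke generator multiplies `f` by a scalar modulo `3`. -/
private theorem generator_mod_three [NeZero N] {a af : ℕ → ℤ}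
    (heig : FormalHecke.IsEigensystem
      (fun ℓ => if ℓ ∣ N then 0 else ((chiNegThree ℓ : ℤ) : ℤ)) a)
    {f : CuspForm (Gamma0 N) 2} (haf : ∀ n, (af n : ℂ) = qCoeff f n)
    (hafa : ∀ n, (3 : ℤ) ∣ af n - a n) {t : Module.End ℂ (CuspForm (Gamma0 N) 2)}
    (ht : t ∈ CuspForm.heckeGenerators N 2 (∅ : Set ℕ)) :
    ∃ c : ℤ, ∃ g ∈ CuspForm.intLattice N 2, t f = (c : ℂ) • f + (3 : ℂ) • g := by
  obtain ⟨ℓ, hℓ, c, hc, hco⟩ : ∃ ℓ : ℕ, ℓ.Prime ∧ ∃ c : ℤ,
      ((3 : ℤ) ∣ c - (if ℓ ∣ N then 0 else chiNegThree ℓ)) ∧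
      ∀ n, qCoeff (t f) n = qCoeff f (ℓ * n) +
        (c : ℂ) * (if ℓ ∣ n then qCoeff f (n / ℓ) else 0) := by
    rcases ht with ⟨ℓ, hℓ, hℓN, -, rfl⟩ | ⟨q, hqN, hq, -, rfl⟩
    · exact ⟨ℓ, hℓ, ℓ, by rw [if_neg hℓN]; exact three_dvd_sub_chi ℓ,
        fun n => by rw [coeff_T hℓ hℓN]; simp⟩
    · exact ⟨q, hq, 0, by simp [hqN], fun n => by rw [coeff_U hq hqN]; simp⟩
  -- the difference from `a ℓ • f` has coefficients divisible by three
  obtain ⟨g, hg, hgt⟩ := exists_three_smul (t f - (a ℓ : ℂ) • f) fun n => by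
    have hrel := heig.2 ℓ hℓ n
    obtain ⟨u, hu⟩ : (3 : ℤ) ∣ af (ℓ * n) + c * (if ℓ ∣ n then af (n / ℓ) else 0) -
        a ℓ * af n := by
      set e : ℤ := if ℓ ∣ N then 0 else chiNegThree ℓ
      have : af (ℓ * n) + c * (if ℓ ∣ n then af (n / ℓ) else 0) - a ℓ * af n =
          (af (ℓ * n) - a (ℓ * n)) + (c - e) * (if ℓ ∣ n then af (n / ℓ) else 0) +
          e * ((if ℓ ∣ n then af (n / ℓ) else 0) - (if ℓ ∣ n then a (n / ℓ) else 0))
          - a ℓ * (af n - a n) := by
        linear_combination hrel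
      rw [this]
      refine (((hafa _).add (hc.mul_right _)).add (Dvd.dvd.mul_left ?_ _)).sub
        ((hafa n).mul_left _)
      split_ifs
      · exact hafa _
      · simp
    refine ⟨u, ?_⟩
    rw [← coeffLin_apply, map_sub, map_smul, coeffLin_apply, coeffLin_apply, hco, ← haf n,
      ← haf (ℓ * n), smul_eq_mul]
    have := congrArg (fun z : ℤ => (z : ℂ)) hu
    push_cast at this
    rw [← this]
    split_ifs
    · rw [haf (n / ℓ)]
    · simp
  exact ⟨a ℓ, g, hg, by rw [← hgt]; abel⟩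

/-- Every Hecke operator multiplies `f` by a scalar modulo `3`. -/
private theorem apply_mod_three [NeZero N] {a af : ℕ → ℤ}
    (heig : FormalHecke.IsEigensystem
      (fun ℓ => if ℓ ∣ N then 0 else ((chiNegThree ℓ : ℤ) : ℤ)) a)
    {f : CuspForm (Gamma0 N) 2} (haf : ∀ n, (af n : ℂ) = qCoeff f n)
    (hafa : ∀ n, (3 : ℤ) ∣ af n - a n) {t : Module.End ℂ (CuspForm (Gamma0 N) 2)}
    (ht : t ∈ CuspForm.heckeAlgebra N 2 (∅ : Set ℕ)) :
    ∃ c : ℤ, ∃ g ∈ CuspForm.intLattice N 2, t f = (c : ℂ) • f + (3 : ℂ) • g := by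
  induction ht using Algebra.adjoin_induction with
  | mem t ht => exact generator_mod_three heig haf hafa ht
  | algebraMap n =>
    exact ⟨n, 0, zero_mem _, by simp [Int.cast_smul_eq_zsmul]⟩
  | add s t hs ht ihs iht =>
    obtain ⟨c, g, hg, hs'⟩ := ihs
    obtain ⟨d, g', hg', ht'⟩ := iht
    exact ⟨c + d, g + g', add_mem hg hg', by
      rw [LinearMap.add_apply, hs', ht', Int.cast_add, add_smul, smul_add]; abel⟩
  | mul s t hs ht ihs iht =>
    obtain ⟨c, g, hg, hs'⟩ := ihs
    obtain ⟨d, g', hg', ht'⟩ := iht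
    refine ⟨d * c, d • g + s g', add_mem (zsmul_mem hg d)
      (CuspForm.mem_intLattice_of_mem_heckeAlgebra (by norm_num) hs hg'), ?_⟩
    rw [Module.End.mul_apply, ht', map_add, map_smul, map_smul, hs', Int.cast_mul,
      ← Int.cast_smul_eq_zsmul ℂ d g]
    simp only [smul_add, smul_smul, mul_comm (3 : ℂ), add_assoc]

/-- A scalar by which an operator acts on `f` modulo `3` is unique modulo `3`. -/
private theorem scalar_mod_three_unique {af : ℕ → ℤ} {f : CuspForm (Gamma0 N) 2}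
    (haf : ∀ n, (af n : ℂ) = qCoeff f n) (haf1 : (af 1 : ZMod 3) = 1) {c d : ℤ}
    {g g' : CuspForm (Gamma0 N) 2} (hg : g ∈ CuspForm.intLattice N 2)
    (hg' : g' ∈ CuspForm.intLattice N 2)
    (heq : (c : ℂ) • f + (3 : ℂ) • g = (d : ℂ) • f + (3 : ℂ) • g') :
    (c : ZMod 3) = d := by
  have h1 := congrArg (coeffLin N 1) heq
  obtain ⟨m, hm⟩ := mem_intLattice_iff.mp hg 1
  obtain ⟨m', hm'⟩ := mem_intLattice_iff.mp hg' 1
  simp only [map_add, map_smul, coeffLin_apply, smul_eq_mul, ← haf 1, hm, hm'] at h1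
  have h2 : c * af 1 + 3 * m = d * af 1 + 3 * m' := by exact_mod_cast h1
  have h3 := congrArg (fun z : ℤ => (z : ZMod 3)) h2
  push_cast at h3
  rw [haf1, show (3 : ZMod 3) = 0 from rfl] at h3
  simpa using h3

/-- The residual eigencharacter of the Hecke algebra attached to `f`. -/
private theorem exists_residual_eigenchar [NeZero N] {a af : ℕ → ℤ}
    (heig : FormalHecke.IsEigensystem
      (fun ℓ => if ℓ ∣ N then 0 else ((chiNegThree ℓ : ℤ) : ℤ)) a)
    {f : CuspForm (Gamma0 N) 2} (haf : ∀ n, (af n : ℂ) = qCoeff f n)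
    (hafa : ∀ n, (3 : ℤ) ∣ af n - a n) (haf1 : (af 1 : ZMod 3) = 1) :
    ∃ θ : CuspForm.heckeAlgebra N 2 (∅ : Set ℕ) →+* ZMod 3, ∀ t, ∃ c : ℤ,
      ∃ g ∈ CuspForm.intLattice N 2, t.1 f = (c : ℂ) • f + (3 : ℂ) • g ∧ θ t = c := by
  choose c g hg hcg using fun t : CuspForm.heckeAlgebra N 2 (∅ : Set ℕ) =>
    apply_mod_three heig haf hafa t.2
  have huniq : ∀ t (d : ℤ) (g' : CuspForm (Gamma0 N) 2), g' ∈ CuspForm.intLattice N 2 →
      (t : CuspForm.heckeAlgebra N 2 (∅ : Set ℕ)).1 f = (d : ℂ) • f + (3 : ℂ) • g' →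
      (c t : ZMod 3) = d := fun t d g' hg' heq =>
    scalar_mod_three_unique haf haf1 (hg t) hg' ((hcg t).symm.trans heq)
  refine ⟨
    { toFun := fun t => (c t : ZMod 3)
      map_one' := by simpa using huniq 1 1 0 (zero_mem _) (by simp)
      map_mul' := fun s t => by
        rw [← Int.cast_mul, mul_comm (c s) (c t)]
        refine huniq (s * t) (c t * c s) (c t • g s + s.1 (g t)) (add_mem (zsmul_mem (hg s) _)
          (CuspForm.mem_intLattice_of_mem_heckeAlgebra (by norm_num) s.2 (hg t))) ?_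
        change s.1 (t.1 f) = _
        rw [hcg t, map_add, map_smul, map_smul, hcg s, Int.cast_mul,
          ← Int.cast_smul_eq_zsmul ℂ (c t) (g s)]
        simp only [smul_add, smul_smul, mul_comm (3 : ℂ), add_assoc]
      map_zero' := by simpa using huniq 0 0 0 (zero_mem _) (by simp)
      map_add' := fun s t => by
        rw [← Int.cast_add]
        refine huniq (s + t) (c s + c t) (g s + g t) (add_mem (hg s) (hg t)) ?_
        change s.1 f + t.1 f = _
        rw [hcg s, hcg t, Int.cast_add, add_smul, smul_add]; abel },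
    fun t => ⟨c t, g t, hg t, hcg t, rfl⟩⟩

/-- A simultaneous eigenvector rescales to one with first coefficient `1`. -/
private theorem exists_normalized_eigen [NeZero N] {v : CuspForm (Gamma0 N) 2} (hv0 : v ≠ 0)
    {χ : CuspForm.heckeAlgebra N 2 (∅ : Set ℕ) →+* ℂ} (hv : ∀ t, t.1 v = χ t • v) :
    ∃ F : CuspForm (Gamma0 N) 2, qCoeff F 1 = 1 ∧ ∀ t, t.1 F = χ t • F := by
  refine ⟨(qCoeff v 1)⁻¹ • v, ?_, fun t => ?_⟩
  · rw [← coeffLin_apply, map_smul, coeffLin_apply, smul_eq_mul,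
      inv_mul_cancel₀ (coeff_one_ne_zero hv0 hv)]
  · rw [map_smul, smul_comm]
    exact congrArg _ (hv t)

/-- A maximal ideal of the algebraic integers over a residual character below `χ`. -/
private theorem exists_maximal_over_residual [NeZero N] (h : CuspForm.HasIntegralBasis N)
    (χ : CuspForm.heckeAlgebra N 2 (∅ : Set ℕ) →+* ℂ)
    (θ : CuspForm.heckeAlgebra N 2 (∅ : Set ℕ) →+* ZMod 3)
    (hker : RingHom.ker χ ≤ RingHom.ker θ) :
    ∃ 𝔪' : Ideal (integralClosure ℤ ℂ), 𝔪'.IsMaximal ∧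
      ((3 : ℕ) : integralClosure ℤ ℂ) ∈ 𝔪' ∧
      ∀ t (n : ℤ), θ t = n →
        ∃ c : integralClosure ℤ ℂ, (c : ℂ) = χ t ∧ c - (n : integralClosure ℤ ℂ) ∈ 𝔪' := by
  have : Module.Finite ℤ (CuspForm.heckeAlgebra N 2 (∅ : Set ℕ)) := moduleFinite_hecke h
  have : Fact (Nat.Prime 3) := ⟨Nat.prime_three⟩
  have hθmax : (RingHom.ker θ).IsMaximal :=
    RingHom.ker_isMaximal_of_surjective θ (ZMod.ringHom_surjective θ)
  let χ' : CuspForm.heckeAlgebra N 2 (∅ : Set ℕ) →+* integralClosure ℤ ℂ :=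
    χ.codRestrict (integralClosure ℤ ℂ) fun t =>
      (Algebra.IsIntegral.isIntegral (R := ℤ) t).map χ.toIntAlgHom
  let : Algebra (CuspForm.heckeAlgebra N 2 (∅ : Set ℕ)) (integralClosure ℤ ℂ) := χ'.toAlgebra
  have : Algebra.IsIntegral (CuspForm.heckeAlgebra N 2 (∅ : Set ℕ)) (integralClosure ℤ ℂ) :=
    Algebra.IsIntegral.tower_top ℤ
  have hker' : RingHom.ker (algebraMap (CuspForm.heckeAlgebra N 2 (∅ : Set ℕ))
      (integralClosure ℤ ℂ)) ≤ RingHom.ker θ := fun t ht =>
    hker (congrArg Subtype.val (RingHom.mem_ker.mp ht))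
  obtain ⟨𝔪', hmax, hcomap⟩ :=
    Ideal.exists_ideal_over_maximal_of_isIntegral (RingHom.ker θ) hker'
  refine ⟨𝔪', hmax, ?_, fun t n htn => ⟨χ' t, rfl, ?_⟩⟩
  · have : ((3 : ℕ) : CuspForm.heckeAlgebra N 2 (∅ : Set ℕ)) ∈ RingHom.ker θ := by
      rw [RingHom.mem_ker, map_natCast]; rfl
    rw [← hcomap, Ideal.mem_comap, map_natCast] at this
    exact this
  · have hT : t - (n : CuspForm.heckeAlgebra N 2 (∅ : Set ℕ)) ∈ RingHom.ker θ := by
      rw [RingHom.mem_ker, map_sub, map_intCast, htn, sub_self]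
    rw [← hcomap, Ideal.mem_comap, map_sub, map_intCast] at hT
    exact hT

/-- A mod `3` eigensystem realised in the integral lattice lifts to a normalised eigenform. -/
theorem exists_eigenform_congruent [NeZero N] (h : CuspForm.HasIntegralBasis N) {a : ℕ → ℤ}
    (heig : FormalHecke.IsEigensystem
      (fun ℓ => if ℓ ∣ N then 0 else ((chiNegThree ℓ : ℤ) : ℤ)) a)
    (hreal : CuspForm.IsLatticeRealized N a) :
    ∃ (f : CuspForm (Gamma0 N) 2) (_ : f.IsNormalizedEigenform)
      (𝔪' : Ideal (integralClosure ℤ ℂ)), 𝔪'.IsMaximal ∧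
      ((3 : ℕ) : integralClosure ℤ ℂ) ∈ 𝔪' ∧
      ∀ (ℓ : ℕ) (_ : ℓ.Prime) (_ : ¬ ℓ ∣ N),
        ∃ c : integralClosure ℤ ℂ, (c : ℂ) = ModularFormClass.qCoeff f ℓ ∧
          c - (a ℓ : integralClosure ℤ ℂ) ∈ 𝔪' := by
  obtain ⟨f, -, af, haf, hcong⟩ := hreal
  have hafa : ∀ n, (3 : ℤ) ∣ af n - a n := fun n => by
    have := (hcong n).add (three_dvd_bridgeProduct_sub a n)
    rwa [sub_add_sub_cancel] at this
  have hafz : ∀ n, (af n : ZMod 3) = a n := fun n =>
    ((ZMod.intCast_eq_intCast_iff_dvd_sub (a n) (af n) 3).mpr (by exact_mod_cast hafa n)).symm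
  have haf1 : (af 1 : ZMod 3) = 1 := by rw [hafz, heig.1, Int.cast_one]
  obtain ⟨θ, hθ⟩ := exists_residual_eigenchar heig haf hafa haf1
  have : Module.Finite ℤ (CuspForm.heckeAlgebra N 2 (∅ : Set ℕ)) := moduleFinite_hecke h
  have := finiteDimensional h
  have : Fact (Nat.Prime 3) := ⟨Nat.prime_three⟩
  have : (RingHom.ker θ).IsPrime := RingHom.ker_isPrime θ
  -- an eigensystem below the residual character
  obtain ⟨χ, hker, v, hv0, hv⟩ := exists_eigen_ker_le (V := CuspForm (Gamma0 N) 2)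
    (Subalgebra.val (CuspForm.heckeAlgebra N 2 (∅ : Set ℕ))).toRingHom Subtype.val_injective
    (RingHom.ker θ)
  obtain ⟨F, hF1, hFv⟩ := exists_normalized_eigen hv0 hv
  obtain ⟨𝔪', hmax, h3, hmem⟩ := exists_maximal_over_residual h χ θ hker
  refine ⟨F, isNormalizedEigenform_of_eigen hF1 hFv, 𝔪', hmax, h3, fun ℓ hℓ hℓN => ?_⟩
  let T := CuspForm.heckeAlgebra.T (k := 2) (S := (∅ : Set ℕ)) hℓ hℓN (Set.notMem_empty ℓ)
  have hℓ1 : ¬ ℓ ∣ 1 := fun h => hℓ.one_lt.ne' (Nat.dvd_one.mp h)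
  have hχT : χ T = qCoeff F ℓ := by
    have h := congrArg (coeffLin N 1) (hFv T)
    rw [map_smul, CuspForm.heckeAlgebra.coe_T, coeffLin_apply, coeffLin_apply, coeff_T hℓ hℓN,
      hF1, mul_one, if_neg hℓ1, mul_zero, add_zero, smul_eq_mul, mul_one] at h
    exact h.symm
  -- the residual character at `T ℓ` is `a ℓ`
  have hθT : θ T = (a ℓ : ZMod 3) := by
    obtain ⟨c, g, hg, hcg, hc⟩ := hθ T
    have h := congrArg (coeffLin N 1) hcg
    obtain ⟨m, hm⟩ := mem_intLattice_iff.mp hg 1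
    rw [map_add, map_smul, map_smul, CuspForm.heckeAlgebra.coe_T, coeffLin_apply,
      coeffLin_apply, coeffLin_apply, coeff_T hℓ hℓN, hm, ← haf 1, mul_one, ← haf ℓ,
      if_neg hℓ1, mul_zero, add_zero, smul_eq_mul, smul_eq_mul] at h
    have h2 : af ℓ = c * af 1 + 3 * m := by exact_mod_cast h
    have h3 := congrArg (fun z : ℤ => (z : ZMod 3)) h2
    push_cast at h3
    rw [haf1, show (3 : ZMod 3) = 0 from rfl, mul_one, zero_mul, add_zero, hafz ℓ] at h3
    rw [hc, h3]
  obtain ⟨c, hc, hcm⟩ := hmem T (a ℓ) hθT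
  exact ⟨c, hc.trans hχT, hcm⟩

end Fermat.GR.Lifting
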